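import Fermat.Agent.S55.G.Rec.H893.Setup

/-!
# S55 / G / REC leaf L5 (helper893), part 7: approximation by global elements

Every `b ∈ ℚ̄_ℓ` fixed by `W ⊇ ker rho` is a limit of elements `φ x`, `x ∈ F = ℚ(μ_{ℓ^e})`,
with `φ x` fixed by `W`.
-/

set_option autoImplicit false
set_option linter.style.haveILetI false

noncomputable section

namespace Fermat.Agent.S55.G.Rec.H893

open Polynomial IntermediateField

variable (ℓ : ℕ) [hℓ : Fact ℓ.Prime] (e : ℕ)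

attribute [local instance] neZero_pow_h893

local notation "Ω" => PadicAlgCl ℓ
local notation "Gℓ" => (PadicAlgCl ℓ ≃ₐ[ℚ_[ℓ]] PadicAlgCl ℓ)

variable {F : Type} [Field F] [NumberField F] [hcyc : IsCyclotomicExtension {ℓ ^ e} ℚ F]
  (φ : F →ₐ[ℚ] PadicAlgCl ℓ)

lemma norm_zL : ‖zL ℓ e φ‖ = 1 := by
  have h := (zL_spec ℓ e φ).pow_eq_one
  have h1 : ‖zL ℓ e φ‖ ^ (ℓ ^ e) = 1 := by rw [← norm_pow, h, norm_one]
  exact (pow_eq_one_iff_of_nonneg (norm_nonneg _) (NeZero.ne (ℓ ^ e))).1 h1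

/-- elements fixed by `ker rho` lie in `ℚ_ℓ(ζ)` -/
lemma mem_adjoin_of_fixed (he : 0 < e) (b : Ω) (hb : ∀ τ ∈ (rho ℓ e φ).ker, τ b = b) :
    b ∈ Algebra.adjoin ℚ_[ℓ] {zL ℓ e φ} := by
  haveI := isGalois_padicAlgCl_h893 ℓ
  have hint : IsAlgebraic ℚ_[ℓ] (zL ℓ e φ) := Algebra.IsAlgebraic.isAlgebraic _
  rw [← IntermediateField.adjoin_simple_toSubalgebra_of_isAlgebraic hint]
  show b ∈ ℚ_[ℓ]⟮zL ℓ e φ⟯
  rw [← InfiniteGalois.fixedField_fixingSubgroup ℚ_[ℓ]⟮zL ℓ e φ⟯,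
    IntermediateField.mem_fixedField_iff]
  intro τ hτ
  apply hb
  rw [MonoidHom.mem_ker, rho_eq_one_iff]
  apply cyc_eq_one_of_fix ℓ e φ he
  intro ζ hζ
  obtain ⟨i, -, rfl⟩ := (zL_spec ℓ e φ).eq_pow_of_pow_eq_one hζ
  rw [map_pow]
  congr 1
  exact (IntermediateField.mem_fixingSubgroup_iff _ _).1 hτ _
    (IntermediateField.mem_adjoin_simple_self _ _)

/-- density of `φ(F)` in `ℚ_ℓ(ζ)` -/
lemma exists_approx_aeval (p : ℚ_[ℓ][X]) (ε : ℝ) (hε : 0 < ε) :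
    ∃ x : F, ‖φ x - aeval (zL ℓ e φ) p‖ ≤ ε := by
  induction p using Polynomial.induction_on' with
  | add p q hp hq =>
    obtain ⟨x, hx⟩ := hp
    obtain ⟨y, hy⟩ := hq
    refine ⟨x + y, ?_⟩
    have e1 : φ (x + y) - aeval (zL ℓ e φ) (p + q) =
        (φ x - aeval (zL ℓ e φ) p) + (φ y - aeval (zL ℓ e φ) q) := by
      rw [map_add, map_add]; ring
    rw [e1]
    exact (IsUltrametricDist.norm_add_le_max _ _).trans (max_le hx hy)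
  | monomial n c =>
    obtain ⟨r, hr⟩ := Padic.rat_dense ℓ c hε
    refine ⟨algebraMap ℚ F r * zF ℓ e F ^ n, ?_⟩
    have e1 : φ (algebraMap ℚ F r * zF ℓ e F ^ n) - aeval (zL ℓ e φ) (monomial n c) =
        algebraMap ℚ_[ℓ] Ω ((r : ℚ_[ℓ]) - c) * zL ℓ e φ ^ n := by
      rw [map_mul, map_pow, AlgHom.commutes, aeval_monomial, map_sub, sub_mul]
      congr 2
    rw [e1, norm_mul, norm_pow, norm_zL, one_pow, mul_one]
    have h3 := PadicAlgCl.norm_extends ℓ ((r : ℚ_[ℓ]) - c)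
    have h4 : ‖algebraMap ℚ_[ℓ] Ω ((r : ℚ_[ℓ]) - c)‖ = ‖(r : ℚ_[ℓ]) - c‖ := h3
    rw [h4, norm_sub_rev]
    exact hr.le

theorem exists_approx (he : 0 < e) (W : Subgroup Gℓ) (hW : (rho ℓ e φ).ker ≤ W)
    (b : Ω) (hb : ∀ τ ∈ W, τ b = b) (ε : ℝ) (hε : 0 < ε) :
    ∃ x : F, (∀ τ ∈ W, τ (φ x) = φ x) ∧ ‖φ x - b‖ ≤ ε := by
  classical
  haveI : IsGalois ℚ F := IsCyclotomicExtension.isGalois {ℓ ^ e} ℚ F
  -- the finite group `H' = rho(W)`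
  set H' : Subgroup (F ≃ₐ[ℚ] F) := W.map (rho ℓ e φ) with hH'
  set h : ℕ := Fintype.card H' with hh
  have hpos : 0 < h := Fintype.card_pos
  have hΩ0 : (h : Ω) ≠ 0 := Nat.cast_ne_zero.2 hpos.ne'
  have hnorm0 : 0 < ‖(h : Ω)‖ := norm_pos_iff.2 hΩ0
  -- first approximation
  have hbmem := mem_adjoin_of_fixed ℓ e φ he b (fun τ hτ => hb τ (hW hτ))
  rw [Algebra.adjoin_singleton_eq_range_aeval] at hbmem
  obtain ⟨p, hp⟩ := hbmem
  obtain ⟨x₀, hx₀⟩ := exists_approx_aeval ℓ e φ p (ε * ‖(h : Ω)‖) (mul_pos hε hnorm0)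
  have hp' : aeval (zL ℓ e φ) p = b := hp
  rw [hp'] at hx₀
  -- averaging
  set S : F := ∑ σ : H', (σ : F ≃ₐ[ℚ] F) x₀ with hS
  refine ⟨(h : F)⁻¹ * S, ?_, ?_⟩
  · intro τ hτ
    rw [← emb_rho ℓ e φ]
    congr 1
    rw [map_mul, map_inv₀, map_natCast]
    congr 1
    rw [hS, map_sum]
    have hmem : rho ℓ e φ τ ∈ H' := Subgroup.mem_map_of_mem _ hτ
    exact Fintype.sum_equiv (Equiv.mulLeft (⟨rho ℓ e φ τ, hmem⟩ : H')) _ _ (fun σ => rfl)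
  · have e1 : φ ((h : F)⁻¹ * S) - b = (h : Ω)⁻¹ * ∑ σ : H', (φ ((σ : F ≃ₐ[ℚ] F) x₀) - b) := by
      rw [Finset.sum_sub_distrib, Finset.sum_const, Finset.card_univ, ← hh, nsmul_eq_mul,
        mul_sub, inv_mul_cancel_left₀ hΩ0, map_mul, map_inv₀, map_natCast, hS, map_sum]
    rw [e1, norm_mul, norm_inv]
    rw [inv_mul_le_iff₀ hnorm0, mul_comm]
    refine IsUltrametricDist.norm_sum_le_of_forall_le_of_nonneg
      (mul_pos hε hnorm0).le (fun σ _ => ?_)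
    obtain ⟨τ, hτW, hτ⟩ := σ.2
    have e2 : φ ((σ : F ≃ₐ[ℚ] F) x₀) - b = τ (φ x₀ - b) := by
      rw [map_sub, hb τ hτW, ← emb_rho ℓ e φ, hτ]
    rw [e2, norm_algEquiv]
    exact hx₀

end Fermat.Agent.S55.G.Rec.H893

end
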