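import Fermat.Agent.S55.G.Rec.H893.IdealNorm

/-!
# S55 / G / REC leaf L5 (helper893), part 8: elementary arithmetic

* `exists_root_decomp` : if `|γ|^h = ℓ^(a-a') A / A'` with `A ≡ A' ≡ 1 mod ℓ^e` then
  `|γ| = ℓ^k A₀ / B₀` with `A₀^h ≡ B₀^h mod ℓ^e`, `ℓ ∤ A₀ B₀`.
* `mem_of_pow_card_eq_one` : in a finite cyclic group, `u ^ |H| = 1 → u ∈ H`.
* `padic_estimate` : the final `ℓ`-adic estimate.
-/

set_option autoImplicit false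
set_option linter.style.haveILetI false

namespace Fermat.Agent.S55.G.Rec.H893

/-- uniqueness of the prime-to-`ℓ` part -/
lemma eq_of_pow_mul_eq {ℓ : ℕ} (hℓ : ℓ.Prime) {x y X Y : ℕ} (hX : ¬ ℓ ∣ X) (hY : ¬ ℓ ∣ Y)
    (h : ℓ ^ x * X = ℓ ^ y * Y) : X = Y := by
  wlog hxy : x ≤ y generalizing x y X Y
  · exact (this hY hX h.symm (le_of_not_ge hxy)).symm
  obtain ⟨z, rfl⟩ := Nat.exists_eq_add_of_le hxy
  rw [pow_add, mul_assoc] at h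
  have h1 : X = ℓ ^ z * Y := Nat.eq_of_mul_eq_mul_left (pow_pos hℓ.pos x) h
  rcases Nat.eq_zero_or_pos z with rfl | hz
  · simpa using h1
  · exfalso
    apply hX
    rw [h1]
    exact Dvd.dvd.mul_right (dvd_pow_self ℓ hz.ne') Y

lemma not_dvd_of_modEq_one {ℓ e A : ℕ} (hℓ : ℓ.Prime) (he : 0 < e) (hA : A ≡ 1 [MOD ℓ ^ e]) :
    ¬ ℓ ∣ A := by
  intro h
  have h1 : A ≡ 1 [MOD ℓ] := hA.of_dvd (dvd_pow_self ℓ he.ne')
  have h2 : A ≡ 0 [MOD ℓ] := (Nat.modEq_zero_iff_dvd).2 h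
  have h3 : (1 : ℕ) ≡ 0 [MOD ℓ] := h1.symm.trans h2
  have h4 : ℓ ∣ 1 := (Nat.modEq_zero_iff_dvd).1 h3
  exact hℓ.one_lt.ne' (Nat.dvd_one.1 h4)

theorem exists_root_decomp {ℓ e : ℕ} (hℓ : ℓ.Prime) (he : 0 < e) (γ : ℚ) (hγ : γ ≠ 0) (h : ℕ)
    (a a' A A' : ℕ) (hA : A ≡ 1 [MOD ℓ ^ e]) (hA' : A' ≡ 1 [MOD ℓ ^ e])
    (hEq : |γ| ^ h * ((ℓ : ℚ) ^ a' * A') = (ℓ : ℚ) ^ a * A) :
    ∃ (k : ℤ) (A₀ B₀ : ℕ), ¬ ℓ ∣ A₀ ∧ ¬ ℓ ∣ B₀ ∧ |γ| = (ℓ : ℚ) ^ k * A₀ / B₀ ∧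
      A₀ ^ h ≡ B₀ ^ h [MOD ℓ ^ e] := by
  have hn0 : γ.num.natAbs ≠ 0 := Int.natAbs_ne_zero.2 (Rat.num_ne_zero.2 hγ)
  have hd0 : γ.den ≠ 0 := γ.den_nz
  obtain ⟨α, A₀, hA₀, hn⟩ := Nat.exists_eq_pow_mul_and_not_dvd hn0 ℓ hℓ.ne_one
  obtain ⟨β, B₀, hB₀, hd⟩ := Nat.exists_eq_pow_mul_and_not_dvd hd0 ℓ hℓ.ne_one
  have hℓ0 : (ℓ : ℚ) ≠ 0 := Nat.cast_ne_zero.2 hℓ.ne_zero
  have hB₀0 : (B₀ : ℚ) ≠ 0 := by
    rintro h0
    apply hB₀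
    have : B₀ = 0 := by exact_mod_cast h0
    rw [this]
    exact dvd_zero _
  have habs : |γ| = (γ.num.natAbs : ℚ) / (γ.den : ℚ) := by
    conv_lhs => rw [← Rat.num_div_den γ]
    rw [abs_div, Nat.abs_cast, Nat.cast_natAbs, Int.cast_abs]
  have hdec : |γ| = (ℓ : ℚ) ^ ((α : ℤ) - β) * A₀ / B₀ := by
    rw [habs, hn, hd, zpow_sub₀ hℓ0, zpow_natCast, zpow_natCast]
    push_cast
    field_simp
  refine ⟨(α : ℤ) - β, A₀, B₀, hA₀, hB₀, hdec, ?_⟩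
  -- the equation in ℕ
  have hd0' : (γ.den : ℚ) ≠ 0 := Nat.cast_ne_zero.2 hd0
  have hEqN : ℓ ^ (α * h + a') * (A₀ ^ h * A') = ℓ ^ (a + β * h) * (A * B₀ ^ h) := by
    have h1 : ((γ.num.natAbs : ℚ)) ^ h * ((ℓ : ℚ) ^ a' * A') = (ℓ : ℚ) ^ a * A * (γ.den : ℚ) ^ h := by
      rw [habs, div_pow] at hEq
      field_simp at hEq
      linarith
    have h2 : (γ.num.natAbs) ^ h * (ℓ ^ a' * A') = ℓ ^ a * A * γ.den ^ h := by
      exact_mod_cast h1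
    rw [hn, hd] at h2
    calc ℓ ^ (α * h + a') * (A₀ ^ h * A') = (ℓ ^ α * A₀) ^ h * (ℓ ^ a' * A') := by ring
      _ = ℓ ^ a * A * (ℓ ^ β * B₀) ^ h := h2
      _ = ℓ ^ (a + β * h) * (A * B₀ ^ h) := by ring
  have hX : ¬ ℓ ∣ A₀ ^ h * A' := by
    intro hdv
    rcases (Nat.Prime.dvd_mul hℓ).1 hdv with h1 | h1
    · exact hA₀ (hℓ.dvd_of_dvd_pow h1)
    · exact not_dvd_of_modEq_one hℓ he hA' h1
  have hY : ¬ ℓ ∣ A * B₀ ^ h := by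
    intro hdv
    rcases (Nat.Prime.dvd_mul hℓ).1 hdv with h1 | h1
    · exact not_dvd_of_modEq_one hℓ he hA h1
    · exact hB₀ (hℓ.dvd_of_dvd_pow h1)
  have hkey := eq_of_pow_mul_eq hℓ hX hY hEqN
  have h3 : A₀ ^ h * A' ≡ A₀ ^ h * 1 [MOD ℓ ^ e] := Nat.ModEq.mul_left _ hA'
  have h4 : A * B₀ ^ h ≡ 1 * B₀ ^ h [MOD ℓ ^ e] := Nat.ModEq.mul_right _ hA
  rw [mul_one] at h3
  rw [one_mul] at h4
  exact h3.symm.trans (hkey ▸ h4)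

/-- in a finite cyclic group the `|H|`-torsion is `H` -/
theorem mem_of_pow_card_eq_one {C : Type*} [Group C] [Finite C] [IsCyclic C] (H : Subgroup C)
    (u : C) (hu : u ^ Nat.card H = 1) : u ∈ H := by
  classical
  haveI := Fintype.ofFinite C
  have hpos : 0 < Nat.card H := Nat.card_pos
  have hle := IsCyclic.card_pow_eq_one_le (α := C) hpos
  set S : Finset C := Finset.univ.filter (fun a : C => a ^ Nat.card H = 1) with hS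
  have hsub : (H : Set C).toFinset ⊆ S := by
    intro x hx
    rw [Set.mem_toFinset] at hx
    rw [hS, Finset.mem_filter]
    refine ⟨Finset.mem_univ _, ?_⟩
    have h1 : (⟨x, hx⟩ : H) ^ Nat.card H = 1 := pow_card_eq_one'
    have h2 : x ^ Nat.card H = 1 := by
      have := congrArg Subtype.val h1
      rwa [Subgroup.coe_pow] at this
    exact h2
  have hcard : S.card ≤ ((H : Set C).toFinset).card := by
    rw [Set.toFinset_card]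
    have : Fintype.card (H : Set C) = Nat.card H := (Nat.card_eq_fintype_card).symm
    rw [this]
    exact hle
  have heq := Finset.eq_of_subset_of_card_le hsub hcard
  have huS : u ∈ S := by
    rw [hS, Finset.mem_filter]
    exact ⟨Finset.mem_univ _, hu⟩
  rw [← heq, Set.mem_toFinset] at huS
  exact huS

end Fermat.Agent.S55.G.Rec.H893
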