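import Mathlib

/-!
# S55 / G / REC leaf L5 (helper893), part 1: the local cyclotomic character is surjective

* `irreducible_cyclotomic_padic` : `Φ_{ℓ^e}` is irreducible over `ℚ_ℓ` (Eisenstein).
* `exists_algEquiv_pow` : for every primitive `ℓ^e`-th root of unity `ζ` in a normal extension
  `Ω/ℚ_ℓ` and every `t` prime to `ℓ` there is `τ ∈ Aut(Ω/ℚ_ℓ)` with `τ ζ = ζ ^ t`.
-/

set_option autoImplicit false

namespace Fermat.Agent.S55.G.Rec.H893

open Polynomial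

variable (ℓ : ℕ) [hℓ : Fact ℓ.Prime]

/-- `Φ_{ℓ^(n+1)}(X+1)` is Eisenstein over `ℤ_ℓ`. -/
theorem cyclotomic_comp_isEisensteinAt_padicInt (n : ℕ) :
    ((cyclotomic (ℓ ^ (n + 1)) ℤ_[ℓ]).comp (X + 1)).IsEisensteinAt
      (Ideal.span {(ℓ : ℤ_[ℓ])}) := by
  have hZ := cyclotomic_prime_pow_comp_X_add_one_isEisensteinAt ℓ n
  have hmap : (cyclotomic (ℓ ^ (n + 1)) ℤ_[ℓ]).comp (X + 1) =
      ((cyclotomic (ℓ ^ (n + 1)) ℤ).comp (X + 1)).map (Int.castRingHom ℤ_[ℓ]) := by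
    rw [Polynomial.map_comp, map_cyclotomic, Polynomial.map_add, Polynomial.map_X,
      Polynomial.map_one]
  have hmonic : ((cyclotomic (ℓ ^ (n + 1)) ℤ).comp (X + 1)).Monic := by
    rw [show (X + 1 : ℤ[X]) = X + C 1 by simp]
    refine (cyclotomic.monic _ ℤ).comp (monic_X_add_C 1) fun h => ?_
    rw [natDegree_X_add_C] at h
    exact zero_ne_one h.symm
  have hne : Ideal.span {(ℓ : ℤ_[ℓ])} ≠ ⊤ := by
    rw [Ne, Ideal.span_singleton_eq_top]
    exact (PadicInt.prime_p (p := ℓ)).not_isUnit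
  rw [hmap]
  refine Monic.isEisensteinAt_of_mem_of_notMem (hmonic.map _) hne (fun {i} hi => ?_) ?_
  · rw [(hmonic.natDegree_map _)] at hi
    have := hZ.mem hi
    rw [Ideal.submodule_span_eq, Ideal.mem_span_singleton] at this
    obtain ⟨c, hc⟩ := this
    rw [coeff_map, hc, Ideal.mem_span_singleton]
    exact ⟨(c : ℤ_[ℓ]), by simp⟩
  · rw [coeff_map, coeff_zero_eq_eval_zero, eval_comp, eval_add, eval_X, eval_one, zero_add,
      eval_one_cyclotomic_prime_pow, Ideal.span_singleton_pow, Ideal.mem_span_singleton]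
    intro h
    have h1 : ((ℓ : ℤ) : ℤ_[ℓ]) = (ℓ : ℤ_[ℓ]) := by push_cast; rfl
    simp only [eq_intCast, h1] at h
    obtain ⟨c, hc⟩ := h
    have hp0 : (ℓ : ℤ_[ℓ]) ≠ 0 := (PadicInt.prime_p (p := ℓ)).ne_zero
    have : (ℓ : ℤ_[ℓ]) * 1 = (ℓ : ℤ_[ℓ]) * (ℓ * c) := by rw [mul_one, ← mul_assoc, ← sq]; exact hc
    have h2 := mul_left_cancel₀ hp0 this
    exact (PadicInt.prime_p (p := ℓ)).not_isUnit (IsUnit.of_mul_eq_one _ h2.symm)

/-- `Φ_{ℓ^e}` is irreducible over `ℚ_ℓ`. -/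
theorem irreducible_cyclotomic_padic (e : ℕ) (he : 0 < e) :
    Irreducible (cyclotomic (ℓ ^ e) ℚ_[ℓ]) := by
  obtain ⟨n, rfl⟩ : ∃ n, e = n + 1 := ⟨e - 1, by omega⟩
  have hE := cyclotomic_comp_isEisensteinAt_padicInt ℓ n
  have hmonic : ((cyclotomic (ℓ ^ (n + 1)) ℤ_[ℓ]).comp (X + 1)).Monic := by
    rw [show (X + 1 : ℤ_[ℓ][X]) = X + C 1 by simp]
    refine (cyclotomic.monic _ _).comp (monic_X_add_C 1) fun h => ?_
    rw [natDegree_X_add_C] at h
    exact zero_ne_one h.symm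
  have hprime : (Ideal.span {(ℓ : ℤ_[ℓ])}).IsPrime :=
    (Ideal.span_singleton_prime (PadicInt.prime_p (p := ℓ)).ne_zero).2 PadicInt.prime_p
  have hdeg : 0 < ((cyclotomic (ℓ ^ (n + 1)) ℤ_[ℓ]).comp (X + 1)).natDegree := by
    rw [natDegree_comp, show (X + 1 : ℤ_[ℓ][X]) = X + C 1 by simp, natDegree_X_add_C, mul_one,
      natDegree_cyclotomic]
    exact Nat.totient_pos.2 (pow_pos hℓ.out.pos _)
  have hirr := hE.irreducible hprime hmonic.isPrimitive hdeg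
  have hirrQ := (hmonic.irreducible_iff_irreducible_map_fraction_map (K := ℚ_[ℓ])).1 hirr
  rw [Polynomial.map_comp, map_cyclotomic, Polynomial.map_add, Polynomial.map_X,
    Polynomial.map_one] at hirrQ
  have e1 : (cyclotomic (ℓ ^ (n + 1)) ℚ_[ℓ]).comp (X + 1) =
      algEquivAevalXAddC (1 : ℚ_[ℓ]) (cyclotomic (ℓ ^ (n + 1)) ℚ_[ℓ]) := by
    simp [algEquivAevalXAddC, Polynomial.aeval_def, Polynomial.comp, eval₂_eq_eval_map]
  rw [e1] at hirrQ
  exact (MulEquiv.irreducible_iff (algEquivAevalXAddC (1 : ℚ_[ℓ])).toMulEquiv).1 hirrQ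

end Fermat.Agent.S55.G.Rec.H893
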