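import Fermat.Agent.S55.G.Rec.H893.Arith

/-!
# S55 / G / REC leaf L5 (helper893), part 9: norms of field elements, the `ℓ`-adic estimate
-/

set_option autoImplicit false
set_option linter.style.haveILetI false

namespace Fermat.Agent.S55.G.Rec.H893

open NumberField

/-- the absolute value of the norm of a nonzero element of a number field containing `μ_{ℓ^e}`
is `ℓ^(a-a') A / A'` with `A ≡ A' ≡ 1 mod ℓ^e`. -/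
theorem exists_good_norm (ℓ e : ℕ) [hℓ : Fact ℓ.Prime] (he : 0 < e) {F : Type*} [Field F]
    [NumberField F] (ζ : F) (hζ : IsPrimitiveRoot ζ (ℓ ^ e)) (x : F) (hx : x ≠ 0) :
    ∃ a a' A A' : ℕ, A ≡ 1 [MOD ℓ ^ e] ∧ A' ≡ 1 [MOD ℓ ^ e] ∧
      |Algebra.norm ℚ x| * ((ℓ : ℚ) ^ a' * A') = (ℓ : ℚ) ^ a * A := by
  haveI : NeZero (ℓ ^ e) := ⟨pow_ne_zero _ hℓ.out.ne_zero⟩
  obtain ⟨y, z, hz, hyz⟩ := IsFractionRing.div_surjective (A := 𝓞 F) x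
  have hz0 : z ≠ 0 := nonZeroDivisors.ne_zero hz
  have hy0 : y ≠ 0 := by
    rintro rfl
    rw [map_zero, zero_div] at hyz
    exact hx hyz.symm
  have hζ' : IsPrimitiveRoot hζ.toInteger (ℓ ^ e) := hζ.toInteger_isPrimitiveRoot
  obtain ⟨a, A, hNy, hA⟩ := isGoodNat_norm_int ℓ e he hζ.toInteger hζ' y hy0
  obtain ⟨a', A', hNz, hA'⟩ := isGoodNat_norm_int ℓ e he hζ.toInteger hζ' z hz0
  refine ⟨a, a', A, A', hA, hA', ?_⟩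
  have h1 : |Algebra.norm ℚ (algebraMap (𝓞 F) F y)| = ((ℓ ^ a * A : ℕ) : ℚ) := by
    rw [← hNy, ← Algebra.coe_norm_int, ← Int.cast_abs, Nat.cast_natAbs]
  have h2 : |Algebra.norm ℚ (algebraMap (𝓞 F) F z)| = ((ℓ ^ a' * A' : ℕ) : ℚ) := by
    rw [← hNz, ← Algebra.coe_norm_int, ← Int.cast_abs, Nat.cast_natAbs]
  have hz1 : algebraMap (𝓞 F) F z ≠ 0 := by
    intro h0
    exact hz0 ((FaithfulSMul.algebraMap_injective (𝓞 F) F) (by rw [h0, map_zero]))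
  have h3 : x * algebraMap (𝓞 F) F z = algebraMap (𝓞 F) F y := by
    rw [← hyz, div_mul_cancel₀ _ hz1]
  have h4 := congrArg (fun w => |Algebra.norm ℚ w|) h3
  simp only [map_mul, abs_mul] at h4
  rw [h1, h2] at h4
  push_cast at h4
  exact h4

variable (ℓ : ℕ) [hℓ : Fact ℓ.Prime]

/-- the final `ℓ`-adic estimate -/
theorem padic_estimate (e : ℕ) (k : ℤ) (A₀ B₀ t : ℕ) (hB₀ : ¬ ℓ ∣ B₀)
    (ht : t * B₀ ≡ A₀ [MOD ℓ ^ e]) :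
    ‖(((ℓ : ℚ) ^ k * A₀ / B₀ : ℚ) : ℚ_[ℓ]) - (ℓ : ℚ_[ℓ]) ^ k * t‖ ≤
      ‖(ℓ : ℚ_[ℓ])‖ ^ (k + e) := by
  have hℓ0 : (ℓ : ℚ_[ℓ]) ≠ 0 := Nat.cast_ne_zero.2 hℓ.out.ne_zero
  have hB1 : ‖(B₀ : ℚ_[ℓ])‖ = 1 := by
    rw [Padic.norm_natCast_eq_one_iff]
    exact (Nat.Prime.coprime_iff_not_dvd hℓ.out).2 hB₀
  have hB0 : (B₀ : ℚ_[ℓ]) ≠ 0 := by
    intro h0
    rw [h0, norm_zero] at hB1
    exact zero_ne_one hB1
  have e1 : (((ℓ : ℚ) ^ k * A₀ / B₀ : ℚ) : ℚ_[ℓ]) - (ℓ : ℚ_[ℓ]) ^ k * t =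
      (ℓ : ℚ_[ℓ]) ^ k * (((A₀ : ℤ) - (t : ℤ) * (B₀ : ℤ) : ℤ) : ℚ_[ℓ]) / (B₀ : ℚ_[ℓ]) := by
    push_cast
    field_simp
  rw [e1, norm_div, hB1, div_one, norm_mul, norm_zpow, zpow_add₀ (norm_ne_zero_iff.2 hℓ0)]
  refine mul_le_mul_of_nonneg_left ?_ (zpow_nonneg (norm_nonneg _) _)
  rw [zpow_natCast, Padic.norm_p, inv_pow, ← zpow_natCast, ← zpow_neg,
    Padic.norm_int_le_pow_iff_dvd]
  have h1 := (Nat.modEq_iff_dvd.1 ht)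
  push_cast at h1 ⊢
  exact h1

end Fermat.Agent.S55.G.Rec.H893
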