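import Fermat.Agent.S55.G.Rec.H893.Setup

/-!
# S55 / G / REC leaf L5 (helper893), part 6: local norms of global elements

For `x ∈ F = ℚ(μ_{ℓ^e})` whose image in `ℚ̄_ℓ` is fixed by `W ⊇ ker rho`:
`relNorm W (φ x) = γ ∈ ℚ` and `γ ^ [W : ker rho] = N_{F/ℚ}(x)`.
-/

set_option autoImplicit false
set_option linter.style.haveILetI false

noncomputable section

namespace Fermat.Agent.S55.G.Rec.H893

open Fermat.Agent.S55.G.Rec

variable (ℓ : ℕ) [hℓ : Fact ℓ.Prime] (e : ℕ)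

attribute [local instance] neZero_pow_h893

local notation "Ω" => PadicAlgCl ℓ
local notation "Gℓ" => (PadicAlgCl ℓ ≃ₐ[ℚ_[ℓ]] PadicAlgCl ℓ)

variable {F : Type} [Field F] [NumberField F] [hcyc : IsCyclotomicExtension {ℓ ^ e} ℚ F]
  (φ : F →ₐ[ℚ] PadicAlgCl ℓ)

lemma finite_quot_ker_rho : Finite (Gℓ ⧸ (rho ℓ e φ).ker) := by
  haveI : Finite (F ≃ₐ[ℚ] F) := inferInstance
  exact Finite.of_injective _ (QuotientGroup.kerLift_injective (rho ℓ e φ))

lemma finite_quot_of_ker_le (W : Subgroup Gℓ) (hW : (rho ℓ e φ).ker ≤ W) : Finite (Gℓ ⧸ W) := by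
  haveI := finite_quot_ker_rho ℓ e φ
  exact Finite.of_surjective
    (Quotient.map' id fun _ _ hab => QuotientGroup.leftRel_apply.mpr
      (hW (QuotientGroup.leftRel_apply.mp hab)) : Gℓ ⧸ (rho ℓ e φ).ker → Gℓ ⧸ W)
    (fun y => by
      induction y using Quotient.inductionOn' with
      | h g => exact ⟨Quotient.mk'' g, rfl⟩)

/-- the local norm from the fixed field of `ker rho` of a global element is its global norm -/
theorem coe_relNorm_ker_emb (he : 0 < e) (x : F) (hx0 : φ x ≠ 0) :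
    ((relNorm (rho ℓ e φ).ker (Units.mk0 (φ x) hx0) : Ωˣ) : Ω) =
      algebraMap ℚ Ω (Algebra.norm ℚ x) := by
  haveI := finite_quot_ker_rho ℓ e φ
  haveI := Fintype.ofFinite (Gℓ ⧸ (rho ℓ e φ).ker)
  haveI : IsGalois ℚ F := IsCyclotomicExtension.isGalois {ℓ ^ e} ℚ F
  rw [coe_relNorm]
  have h1 : ∀ t : Gℓ ⧸ (rho ℓ e φ).ker,
      (Quotient.out t : Gℓ) ((Units.mk0 (φ x) hx0 : Ωˣ) : Ω) =
        φ ((QuotientGroup.quotientKerEquivOfSurjective (rho ℓ e φ) (rho_surjective ℓ e φ he) t) x) := by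
    intro t
    rw [Units.val_mk0, ← emb_rho ℓ e φ]
    congr 2
    conv_rhs => rw [← QuotientGroup.out_eq' t]
    rfl
  simp only [h1]
  rw [← map_prod]
  rw [Fintype.prod_equiv (QuotientGroup.quotientKerEquivOfSurjective (rho ℓ e φ)
    (rho_surjective ℓ e φ he)).toEquiv
    (fun t => (QuotientGroup.quotientKerEquivOfSurjective (rho ℓ e φ)
      (rho_surjective ℓ e φ he) t) x) (fun σ : F ≃ₐ[ℚ] F => σ x) (fun t => rfl)]
  rw [← Algebra.norm_eq_prod_automorphisms, AlgHom.commutes]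

theorem relNorm_emb_eq_rat (he : 0 < e) (W : Subgroup Gℓ) (hW : (rho ℓ e φ).ker ≤ W)
    (x : F) (hx0 : φ x ≠ 0) (hx : ∀ τ ∈ W, τ (φ x) = φ x) :
    ∃ γ : ℚ, ((relNorm W (Units.mk0 (φ x) hx0) : Ωˣ) : Ω) = algebraMap ℚ Ω γ ∧
      γ ^ Nat.card (W ⧸ (rho ℓ e φ).ker.subgroupOf W) = Algebra.norm ℚ x := by
  haveI := finite_quot_ker_rho ℓ e φ
  haveI := finite_quot_of_ker_le ℓ e φ W hW
  haveI := Fintype.ofFinite (Gℓ ⧸ W)
  haveI : IsGalois ℚ F := IsCyclotomicExtension.isGalois {ℓ ^ e} ℚ F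
  set β : Ωˣ := Units.mk0 (φ x) hx0 with hβ
  have hfix : ∀ w ∈ W, w • β = β := by
    intro w hw
    apply Units.ext
    rw [coe_smul_unit, hβ, Units.val_mk0]
    exact hx w hw
  -- the global element
  set γF : F := ∏ t : Gℓ ⧸ W, (rho ℓ e φ (Quotient.out t : Gℓ)) x with hγF
  have hφγ : φ γF = ((relNorm W β : Ωˣ) : Ω) := by
    rw [coe_relNorm, hγF, map_prod]
    refine Finset.prod_congr rfl (fun t _ => ?_)
    rw [emb_rho ℓ e φ, hβ, Units.val_mk0]
  have hγfix : ∀ σ : F ≃ₐ[ℚ] F, σ γF = γF := by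
    intro σ
    obtain ⟨τ, rfl⟩ := rho_surjective ℓ e φ he σ
    have key : φ (rho ℓ e φ τ γF) = φ γF := by
      rw [emb_rho ℓ e φ, hφγ]
      have := smul_relNorm W β hfix τ
      have h2 := congrArg (fun u : Ωˣ => (u : Ω)) this
      simpa [coe_smul_unit] using h2
    exact φ.injective key
  obtain ⟨γ, hγ⟩ := (IsGalois.mem_range_algebraMap_iff_fixed (F := ℚ) (E := F) γF).2 hγfix
  refine ⟨γ, ?_, ?_⟩
  · rw [← hφγ, ← hγ, AlgHom.commutes]
  · have hpow := relNorm_eq_pow_of_le hW β hfix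
    have h3 := coe_relNorm_ker_emb ℓ e φ he x hx0
    rw [← hβ, hpow, Units.val_pow_eq_pow_val, ← hφγ, ← hγ, AlgHom.commutes, ← map_pow] at h3
    exact (algebraMap ℚ Ω).injective h3

end Fermat.Agent.S55.G.Rec.H893

end
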