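import Mathlib

/-!
# S55 / G / REC leaf L5 (helper893), part 4: norms in a number field containing `μ_{ℓ^e}`

If the number field `F` contains a primitive `ℓ^e`-th root of unity then the absolute norm of every
nonzero ideal of `𝓞 F` is of the form `ℓ^a * A` with `A ≡ 1 mod ℓ^e`
(prime ideals not above `ℓ` have residue fields containing `μ_{ℓ^e}`).
-/

set_option autoImplicit false
set_option linter.style.haveILetI false

namespace Fermat.Agent.S55.G.Rec.H893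

open NumberField

/-- `n = ℓ^a * A` with `A ≡ 1 mod m` -/
def IsGoodNat (ℓ m n : ℕ) : Prop := ∃ a A : ℕ, n = ℓ ^ a * A ∧ A ≡ 1 [MOD m]

lemma isGoodNat_one (ℓ m : ℕ) : IsGoodNat ℓ m 1 := ⟨0, 1, by simp, Nat.ModEq.refl _⟩

lemma IsGoodNat.mul {ℓ m n n' : ℕ} (h : IsGoodNat ℓ m n) (h' : IsGoodNat ℓ m n') :
    IsGoodNat ℓ m (n * n') := by
  obtain ⟨a, A, rfl, hA⟩ := h
  obtain ⟨a', A', rfl, hA'⟩ := h'
  refine ⟨a + a', A * A', by ring, ?_⟩
  simpa using hA.mul hA'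

variable {F : Type*} [Field F] [NumberField F]

theorem isGoodNat_absNorm_prime (ℓ e : ℕ) [hℓ : Fact ℓ.Prime] (he : 0 < e) (ζ : 𝓞 F)
    (hζ : IsPrimitiveRoot ζ (ℓ ^ e)) (P : Ideal (𝓞 F)) (hP : P.IsPrime) (hP0 : P ≠ ⊥) :
    IsGoodNat ℓ (ℓ ^ e) (Ideal.absNorm P) := by
  classical
  haveI hmax : P.IsMaximal := hP.isMaximal hP0
  letI : Field (𝓞 F ⧸ P) := Ideal.Quotient.field P
  haveI : Finite (𝓞 F ⧸ P) := Ideal.finiteQuotientOfFreeOfNeBot P hP0
  letI : Fintype (𝓞 F ⧸ P) := Fintype.ofFinite _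
  have hcard : Ideal.absNorm P = Fintype.card (𝓞 F ⧸ P) := by
    rw [Ideal.absNorm_apply, Submodule.cardQuot_apply, Nat.card_eq_fintype_card]
  rw [hcard]
  by_cases hl : (ℓ : 𝓞 F) ∈ P
  · -- residue characteristic `ℓ`
    have h0 : ((ℓ : ℕ) : 𝓞 F ⧸ P) = 0 := by
      have : (Ideal.Quotient.mk P) (ℓ : 𝓞 F) = 0 := Ideal.Quotient.eq_zero_iff_mem.2 hl
      simpa using this
    haveI : CharP (𝓞 F ⧸ P) ℓ := by
      obtain ⟨p, hp⟩ := CharP.exists (𝓞 F ⧸ P)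
      have hpdvd : p ∣ ℓ := (CharP.cast_eq_zero_iff (𝓞 F ⧸ P) p ℓ).1 h0
      have hp1 : p ≠ 1 := by
        rintro rfl
        exact CharP.char_ne_one (𝓞 F ⧸ P) 1 rfl
      have : p = ℓ := (Nat.dvd_prime hℓ.out).1 hpdvd |>.resolve_left hp1
      exact this ▸ hp
    obtain ⟨n, -, hn⟩ := FiniteField.card (𝓞 F ⧸ P) ℓ
    exact ⟨n, 1, by rw [hn, mul_one], Nat.ModEq.refl _⟩
  · -- `ζ` has order `ℓ^e` in the residue field
    obtain ⟨n, rfl⟩ : ∃ n, e = n + 1 := ⟨e - 1, by omega⟩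
    set z : 𝓞 F ⧸ P := Ideal.Quotient.mk P ζ with hz
    have hz1 : z ^ ℓ ^ (n + 1) = 1 := by
      rw [hz, ← map_pow, hζ.pow_eq_one, map_one]
    have hz2 : ¬ z ^ ℓ ^ n = 1 := by
      intro h
      apply hl
      have hη : IsPrimitiveRoot (ζ ^ ℓ ^ n) ℓ :=
        hζ.pow (pow_pos hℓ.out.pos _) (by rw [pow_succ])
      have hsum := hη.geom_sum_eq_zero hℓ.out.one_lt
      have := congrArg (Ideal.Quotient.mk P) hsum
      rw [map_sum, map_zero] at this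
      simp only [map_pow] at this
      rw [← hz, h] at this
      simp only [one_pow, Finset.sum_const, Finset.card_range, nsmul_eq_mul, mul_one] at this
      rw [← map_natCast (Ideal.Quotient.mk P)] at this
      exact Ideal.Quotient.eq_zero_iff_mem.1 this
    have hz0 : z ≠ 0 := by
      rintro h0
      rw [h0, zero_pow (pow_pos hℓ.out.pos _).ne'] at hz1
      exact zero_ne_one hz1
    have hord : orderOf (Units.mk0 z hz0) = ℓ ^ (n + 1) := by
      apply orderOf_eq_prime_pow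
      · intro h
        apply hz2
        have := congrArg Units.val h
        simpa using this
      · apply Units.ext
        simpa using hz1
    have hdvd : ℓ ^ (n + 1) ∣ Fintype.card (𝓞 F ⧸ P)ˣ := hord ▸ orderOf_dvd_card
    rw [Fintype.card_units] at hdvd
    have hpos : 1 ≤ Fintype.card (𝓞 F ⧸ P) := Fintype.card_pos
    refine ⟨0, Fintype.card (𝓞 F ⧸ P), by simp, ?_⟩
    exact ((Nat.modEq_iff_dvd' hpos).2 hdvd).symm

theorem isGoodNat_absNorm (ℓ e : ℕ) [hℓ : Fact ℓ.Prime] (he : 0 < e) (ζ : 𝓞 F)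
    (hζ : IsPrimitiveRoot ζ (ℓ ^ e)) (I : Ideal (𝓞 F)) (hI : I ≠ ⊥) :
    IsGoodNat ℓ (ℓ ^ e) (Ideal.absNorm I) := by
  revert hI
  refine UniqueFactorizationMonoid.induction_on_prime
    (P := fun I : Ideal (𝓞 F) => I ≠ ⊥ → IsGoodNat ℓ (ℓ ^ e) (Ideal.absNorm I)) I ?_ ?_ ?_
  · intro h
    exact absurd rfl h
  · intro J hJ _
    have : J = ⊤ := Ideal.isUnit_iff.1 hJ
    rw [this, Ideal.absNorm_top]
    exact isGoodNat_one _ _
  · intro J P hJ0 hP hJ _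
    rw [map_mul]
    refine IsGoodNat.mul ?_ (hJ hJ0)
    exact isGoodNat_absNorm_prime ℓ e he ζ hζ P (Ideal.isPrime_of_prime hP) hP.ne_zero

theorem isGoodNat_norm_int (ℓ e : ℕ) [hℓ : Fact ℓ.Prime] (he : 0 < e) (ζ : 𝓞 F)
    (hζ : IsPrimitiveRoot ζ (ℓ ^ e)) (y : 𝓞 F) (hy : y ≠ 0) :
    IsGoodNat ℓ (ℓ ^ e) (Algebra.norm ℤ y).natAbs := by
  rw [← Ideal.absNorm_span_singleton]
  exact isGoodNat_absNorm ℓ e he ζ hζ _ (by simpa using hy)

end Fermat.Agent.S55.G.Rec.H893
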