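import Fermat.Agent.S55.G.Rec.H893.GlobalNorm
import Fermat.Agent.S55.G.Rec.H893.Approx
import Fermat.Agent.S55.G.Rec.H893.Estimate
import Fermat.Agent.S55.G.Rec.Spec2

/-!
# S55 / G / REC leaf L5 (helper893): `LocalCycloNormSpec`

Norms from subfields of `ℚ_ℓ(μ_{ℓ^e})` are `± ℓ^k · u`, `u mod ℓ^e ∈ c(W)`.
Proof by GLOBAL approximation (no local class field theory): approximate by elements of
`ℚ(μ_{ℓ^e})` fixed by `W`, use that ideal norms of `ℚ(μ_{ℓ^e})` prime to `ℓ` are `≡ 1 mod ℓ^e`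
and that `(ℤ/ℓ^e)ˣ` is cyclic.
-/

set_option autoImplicit false
set_option linter.style.haveILetI false

noncomputable section

namespace Fermat.Agent.S55.G.Rec.H893

open Fermat.Agent.S55.G.Rec

variable (ℓ : ℕ) [hℓ : Fact ℓ.Prime] (e : ℕ)

attribute [local instance] neZero_pow_h893

local notation "Ω" => PadicAlgCl ℓ
local notation "Gℓ" => (PadicAlgCl ℓ ≃ₐ[ℚ_[ℓ]] PadicAlgCl ℓ)

lemma norm_eq_of_sub_lt {x y : Ω} (h : ‖x - y‖ < ‖y‖) : ‖x‖ = ‖y‖ := by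
  apply le_antisymm
  · have e1 : x = (x - y) + y := by ring
    rw [e1]
    exact (IsUltrametricDist.norm_add_le_max _ _).trans (max_le h.le le_rfl)
  · by_contra hlt
    rw [not_le] at hlt
    have e1 : y = x + (y - x) := by ring
    have h2 : ‖y‖ ≤ max ‖x‖ ‖y - x‖ := by
      conv_lhs => rw [e1]
      exact IsUltrametricDist.norm_add_le_max _ _
    rw [norm_sub_rev y x] at h2
    exact absurd h2 (not_le.2 (max_lt hlt h))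

lemma norm_natCast_ell : ‖(ℓ : Ω)‖ = (ℓ : ℝ)⁻¹ := by
  have h := PadicAlgCl.norm_extends ℓ (ℓ : ℚ_[ℓ])
  have h2 : ((ℓ : ℚ_[ℓ]) : Ω) = (ℓ : Ω) := map_natCast (algebraMap ℚ_[ℓ] Ω) ℓ
  rw [h2] at h
  rw [h, Padic.norm_p]

lemma norm_algebraMap_padic (y : ℚ_[ℓ]) : ‖algebraMap ℚ_[ℓ] Ω y‖ = ‖y‖ :=
  PadicAlgCl.norm_extends ℓ y

variable {F : Type} [Field F] [NumberField F] [hcyc : IsCyclotomicExtension {ℓ ^ e} ℚ F]
  (φ : F →ₐ[ℚ] PadicAlgCl ℓ)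

lemma ker_rho_le (he : 0 < e) (W : Subgroup Gℓ)
    (hW : ∀ τ : Gℓ, (∀ ζ : Ω, ζ ^ (ℓ ^ e) = 1 → τ ζ = ζ) → τ ∈ W) :
    (rho ℓ e φ).ker ≤ W := by
  intro τ hτ
  apply hW
  intro ζ hζ
  have h1 : cyc ℓ e φ τ = 1 := (rho_eq_one_iff ℓ e φ τ).1 hτ
  have hm : 1 < ℓ ^ e := Nat.one_lt_pow he.ne' hℓ.out.one_lt
  haveI : Fact (1 < ℓ ^ e) := ⟨hm⟩
  rw [cyc_spec ℓ e φ τ ζ hζ, h1, Units.val_one, ZMod.val_one, pow_one]

lemma card_map_cyc (W : Subgroup Gℓ) :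
    Nat.card (W ⧸ (rho ℓ e φ).ker.subgroupOf W) = Nat.card (W.map (cyc ℓ e φ)) := by
  have h1 : ((cyc ℓ e φ).comp W.subtype).ker = (rho ℓ e φ).ker.subgroupOf W := by
    rw [ker_rho_eq]
    rfl
  have h2 : ((cyc ℓ e φ).comp W.subtype).range = W.map (cyc ℓ e φ) := by
    rw [MonoidHom.range_comp, Subgroup.range_subtype]
  have h3 := Subgroup.index_ker ((cyc ℓ e φ).comp W.subtype)
  rw [h1, h2] at h3
  exact h3

include hcyc φ in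
theorem localCycloNorm_aux (hℓ2 : ℓ ≠ 2) (he : 0 < e) (W : Subgroup Gℓ)
    (hW : ∀ τ : Gℓ, (∀ ζ : Ω, ζ ^ (ℓ ^ e) = 1 → τ ζ = ζ) → τ ∈ W)
    (b : Ωˣ) (hb : LFixed ℓ W b) :
    ∃ (k : ℤ) (s : ℤˣ) (t : ℕ) (τ : Gℓ), τ ∈ W ∧
      (∀ ζ : Ω, ζ ^ (ℓ ^ e) = 1 → τ ζ = ζ ^ t) ∧
      ‖((relNorm W b : Ωˣ) : Ω) - ((s : ℤ) : Ω) * (ℓ : Ω) ^ k * (t : Ω)‖ ≤
        ‖(ℓ : Ω)‖ ^ (k + e) := by
  have hker := ker_rho_le ℓ e φ he W hW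
  haveI := finite_quot_of_ker_le ℓ e φ W hker
  have hbΩ : ∀ τ ∈ W, τ (b : Ω) = b := by
    intro τ hτ
    have := congrArg (fun u : Ωˣ => (u : Ω)) (hb τ hτ)
    simpa [coe_smul_unit] using this
  have hℓpos : (0 : ℝ) < ℓ := Nat.cast_pos.2 hℓ.out.pos
  have hℓ1 : (1 : ℝ) < ℓ := by exact_mod_cast hℓ.out.one_lt
  have hnℓ : ‖(ℓ : Ω)‖ = (ℓ : ℝ)⁻¹ := norm_natCast_ell ℓ
  have hnℓpos : 0 < ‖(ℓ : Ω)‖ := by rw [hnℓ]; exact inv_pos.2 hℓpos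
  have hnℓlt : ‖(ℓ : Ω)‖ < 1 := by rw [hnℓ]; exact inv_lt_one_of_one_lt₀ hℓ1
  set δ : ℝ := ‖(ℓ : Ω)‖ ^ e with hδ
  have hδpos : 0 < δ := pow_pos hnℓpos e
  have hδlt : δ < 1 := pow_lt_one₀ hnℓpos.le hnℓlt he.ne'
  have hb0 : 0 < ‖(b : Ω)‖ := norm_pos_iff.2 b.ne_zero
  -- approximation
  obtain ⟨x, hxW, hxb⟩ := exists_approx ℓ e φ he W hker b hbΩ (δ * ‖(b : Ω)‖)
    (mul_pos hδpos hb0)
  have hlt : ‖φ x - b‖ < ‖(b : Ω)‖ :=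
    lt_of_le_of_lt hxb (by nlinarith)
  have hnx : ‖φ x‖ = ‖(b : Ω)‖ := norm_eq_of_sub_lt ℓ hlt
  have hφx0 : φ x ≠ 0 := by
    intro h0
    rw [h0, norm_zero] at hnx
    exact hb0.ne hnx
  have hx0 : x ≠ 0 := by
    rintro rfl
    exact hφx0 (map_zero φ)
  set β : Ωˣ := Units.mk0 (φ x) hφx0 with hβ
  have hcont := norm_relNorm_sub_le ℓ W β b δ hδlt.le
    (by rw [hβ, Units.val_mk0, norm_sub_rev, hnx]; exact hxb)
  -- the rational number γ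
  obtain ⟨γ, hγ, hγpow⟩ := relNorm_emb_eq_rat ℓ e φ he W hker x hφx0 hxW
  rw [← hβ] at hγ
  have hγ0 : γ ≠ 0 := by
    rintro rfl
    rw [map_zero] at hγ
    exact (relNorm W β).ne_zero hγ
  obtain ⟨a, a', A, A', hA, hA', hEq⟩ :=
    exists_good_norm ℓ e he (zF ℓ e F) (zF_spec ℓ e) x hx0
  set h : ℕ := Nat.card (W ⧸ (rho ℓ e φ).ker.subgroupOf W) with hh
  obtain ⟨k, A₀, B₀, hA₀, hB₀, hdec, hmod⟩ :=
    exists_root_decomp hℓ.out he γ hγ0 h a a' A A' hA hA'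
      (by rw [← abs_pow, hγpow]; exact hEq)
  -- the unit `u = A₀ / B₀ mod ℓ^e`
  have hcopA : Nat.Coprime A₀ (ℓ ^ e) :=
    Nat.Coprime.pow_right e ((Nat.Prime.coprime_iff_not_dvd hℓ.out).2 hA₀).symm
  have hcopB : Nat.Coprime B₀ (ℓ ^ e) :=
    Nat.Coprime.pow_right e ((Nat.Prime.coprime_iff_not_dvd hℓ.out).2 hB₀).symm
  set uA : (ZMod (ℓ ^ e))ˣ := ZMod.unitOfCoprime A₀ hcopA with huA
  set uB : (ZMod (ℓ ^ e))ˣ := ZMod.unitOfCoprime B₀ hcopB with huB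
  have hAB : uA ^ h = uB ^ h := by
    apply Units.ext
    rw [Units.val_pow_eq_pow_val, Units.val_pow_eq_pow_val, huA, huB,
      ZMod.coe_unitOfCoprime, ZMod.coe_unitOfCoprime]
    have := (ZMod.natCast_eq_natCast_iff _ _ _).2 hmod
    push_cast at this
    exact this
  set u : (ZMod (ℓ ^ e))ˣ := uA * uB⁻¹ with hu
  have hupow : u ^ h = 1 := by
    rw [hu, mul_pow, inv_pow, hAB, mul_inv_cancel]
  haveI : IsCyclic (ZMod (ℓ ^ e))ˣ := ZMod.isCyclic_units_of_prime_pow ℓ hℓ.out hℓ2 e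
  have humem : u ∈ W.map (cyc ℓ e φ) := by
    apply mem_of_pow_card_eq_one
    rw [← card_map_cyc ℓ e φ W]
    exact hupow
  obtain ⟨τ, hτW, hτu⟩ := humem
  set t : ℕ := (u : ZMod (ℓ ^ e)).val with ht
  have htB : t * B₀ ≡ A₀ [MOD ℓ ^ e] := by
    rw [← ZMod.natCast_eq_natCast_iff]
    push_cast
    rw [ht, ZMod.natCast_zmod_val, hu, Units.val_mul]
    have h1 : ((uB : ZMod (ℓ ^ e))) = (B₀ : ZMod (ℓ ^ e)) := ZMod.coe_unitOfCoprime _ _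
    have h2 : ((uA : ZMod (ℓ ^ e))) = (A₀ : ZMod (ℓ ^ e)) := ZMod.coe_unitOfCoprime _ _
    rw [← h1, ← h2, mul_assoc, Units.inv_mul, mul_one]
  -- the sign
  obtain ⟨s, hs⟩ : ∃ s : ℤˣ, γ = ((s : ℤ) : ℚ) * |γ| := by
    rcases lt_or_gt_of_ne hγ0 with hneg | hpos
    · exact ⟨-1, by rw [abs_of_neg hneg]; simp⟩
    · exact ⟨1, by rw [abs_of_pos hpos]; simp⟩
  refine ⟨k, s, t, τ, hτW, ?_, ?_⟩
  · intro ζ hζ
    rw [cyc_spec ℓ e φ τ ζ hζ, hτu]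
  · -- the estimate
    have hsnorm : ‖((s : ℤ) : ℚ_[ℓ])‖ = 1 := by
      rcases Int.units_eq_one_or s with rfl | rfl <;> simp
    have hnℓ' : ‖(ℓ : ℚ_[ℓ])‖ = ‖(ℓ : Ω)‖ := by rw [hnℓ, Padic.norm_p]
    have hest := padic_estimate ℓ e k A₀ B₀ t hB₀ htB
    rw [← hdec] at hest
    -- first term: `N_β - s ℓ^k t`
    have e1 : ((relNorm W β : Ωˣ) : Ω) - ((s : ℤ) : Ω) * (ℓ : Ω) ^ k * (t : Ω) =
        algebraMap ℚ_[ℓ] Ω (((s : ℤ) : ℚ_[ℓ]) * (((|γ| : ℚ) : ℚ_[ℓ]) - (ℓ : ℚ_[ℓ]) ^ k * t)) := by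
      rw [hγ]
      conv_lhs => rw [hs]
      simp only [map_mul, map_sub, map_zpow₀, map_intCast, map_natCast, map_ratCast, eq_ratCast]
      ring
    have hfirst : ‖((relNorm W β : Ωˣ) : Ω) - ((s : ℤ) : Ω) * (ℓ : Ω) ^ k * (t : Ω)‖ ≤
        ‖(ℓ : Ω)‖ ^ (k + e) := by
      rw [e1, norm_algebraMap_padic, norm_mul, hsnorm, one_mul, ← hnℓ']
      exact hest
    -- second term: `N - N_β`
    have hγnorm : ‖((relNorm W β : Ωˣ) : Ω)‖ = ‖(ℓ : Ω)‖ ^ k := by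
      have e2 : algebraMap ℚ Ω γ = algebraMap ℚ_[ℓ] Ω ((γ : ℚ) : ℚ_[ℓ]) := by
        rw [eq_ratCast, map_ratCast]
      rw [hγ, e2, norm_algebraMap_padic]
      have e3 : ((γ : ℚ) : ℚ_[ℓ]) = ((s : ℤ) : ℚ_[ℓ]) * ((|γ| : ℚ) : ℚ_[ℓ]) := by
        conv_lhs => rw [hs]
        push_cast
        rfl
      rw [e3, norm_mul, hsnorm, one_mul, hdec]
      push_cast
      have hA1 : ‖(A₀ : ℚ_[ℓ])‖ = 1 := by
        rw [Padic.norm_natCast_eq_one_iff]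
        exact (Nat.Prime.coprime_iff_not_dvd hℓ.out).2 hA₀
      have hB1 : ‖(B₀ : ℚ_[ℓ])‖ = 1 := by
        rw [Padic.norm_natCast_eq_one_iff]
        exact (Nat.Prime.coprime_iff_not_dvd hℓ.out).2 hB₀
      rw [norm_div, norm_mul, norm_zpow, hA1, hB1, mul_one, div_one, hnℓ']
    have hsecond : ‖((relNorm W b : Ωˣ) : Ω) - (relNorm W β : Ωˣ)‖ ≤ ‖(ℓ : Ω)‖ ^ (k + e) := by
      refine hcont.trans (le_of_eq ?_)
      rw [hγnorm, hδ, zpow_add₀ hnℓpos.ne', zpow_natCast, mul_comm]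
    have e4 : ((relNorm W b : Ωˣ) : Ω) - ((s : ℤ) : Ω) * (ℓ : Ω) ^ k * (t : Ω) =
        (((relNorm W b : Ωˣ) : Ω) - (relNorm W β : Ωˣ)) +
          (((relNorm W β : Ωˣ) : Ω) - ((s : ℤ) : Ω) * (ℓ : Ω) ^ k * (t : Ω)) := by ring
    rw [e4]
    exact (IsUltrametricDist.norm_add_le_max _ _).trans (max_le hsecond hfirst)

/-- **REC2-L5** : norms from subfields of local cyclotomic fields `ℚ_ℓ(μ_{ℓ^e})`. -/
theorem localCycloNorm : LocalCycloNormSpec := by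
  intro ℓ hℓ hℓ2 e he W hW b hb
  haveI : NeZero (ℓ ^ e) := ⟨pow_ne_zero _ hℓ.out.ne_zero⟩
  haveI hc : IsCyclotomicExtension {ℓ ^ e} ℚ (CyclotomicField (ℓ ^ e) ℚ) :=
    CyclotomicField.isCyclotomicExtension (ℓ ^ e) ℚ
  exact localCycloNorm_aux ℓ e (F := CyclotomicField (ℓ ^ e) ℚ)
    ((padicEmbedding ℓ).comp (IsAlgClosed.lift : CyclotomicField (ℓ ^ e) ℚ →ₐ[ℚ] AlgebraicClosure ℚ))
    hℓ2 he W hW b hb

end Fermat.Agent.S55.G.Rec.H893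

end
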