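import Fermat.Agent.S55.G.Rec.H893.RelNorm
import Fermat.Agent.S55.G.Rec.Spec2

/-!
# S55 / G / REC leaf L5 (helper893), part 3: `relNorm` in `PadicAlgCl ℓ` — values and continuity
-/

set_option autoImplicit false
set_option linter.style.haveILetI false

namespace Fermat.Agent.S55.G.Rec.H893

open Fermat.Agent.S55.G.Rec

variable (ℓ : ℕ) [Fact ℓ.Prime]

local notation "Ω" => PadicAlgCl ℓ
local notation "Gℓ" => (PadicAlgCl ℓ ≃ₐ[ℚ_[ℓ]] PadicAlgCl ℓ)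

lemma coe_smul_unit (τ : Gℓ) (u : Ωˣ) : ((τ • u : Ωˣ) : Ω) = τ (u : Ω) := rfl

lemma coe_relNorm (W : Subgroup Gℓ) [Fintype (Gℓ ⧸ W)] (b : Ωˣ) :
    ((relNorm W b : Ωˣ) : Ω) = ∏ t : Gℓ ⧸ W, (Quotient.out t : Gℓ) (b : Ω) := by
  rw [relNorm_eq_prod, Units.coe_prod]
  rfl

lemma norm_algEquiv (τ : Gℓ) (y : Ω) : ‖τ y‖ = ‖y‖ := by
  have := nnnorm_padicAlgCl_algEquiv ℓ τ y
  exact congrArg NNReal.toReal this

/-- ultrametric: a finite product of elements `δ`-close to `1` is `δ`-close to `1` (`δ ≤ 1`) -/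
lemma norm_prod_sub_one_le {ι : Type*} (s : Finset ι) (f : ι → Ω) (δ : ℝ) (hδ0 : 0 ≤ δ)
    (hδ : δ ≤ 1) (hf : ∀ i ∈ s, ‖f i - 1‖ ≤ δ) : ‖∏ i ∈ s, f i - 1‖ ≤ δ := by
  classical
  induction s using Finset.induction_on with
  | empty => simpa using hδ0
  | insert a s ha ih =>
    rw [Finset.prod_insert ha]
    have h1 : ‖f a - 1‖ ≤ δ := hf a (Finset.mem_insert_self _ _)
    have h2 : ‖∏ i ∈ s, f i - 1‖ ≤ δ := ih (fun i hi => hf i (Finset.mem_insert_of_mem hi))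
    have e : f a * ∏ i ∈ s, f i - 1 =
        (f a - 1) * (∏ i ∈ s, f i - 1) + ((f a - 1) + (∏ i ∈ s, f i - 1)) := by ring
    rw [e]
    refine (IsUltrametricDist.norm_add_le_max _ _).trans (max_le ?_ ?_)
    · rw [norm_mul]
      calc ‖f a - 1‖ * ‖∏ i ∈ s, f i - 1‖ ≤ δ * 1 :=
            mul_le_mul h1 (h2.trans hδ) (norm_nonneg _) hδ0
        _ = δ := mul_one δ
    · exact (IsUltrametricDist.norm_add_le_max _ _).trans (max_le h1 h2)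

lemma norm_relNorm_sub_one_le (W : Subgroup Gℓ) [Finite (Gℓ ⧸ W)] (u : Ωˣ) (δ : ℝ)
    (hδ : δ ≤ 1) (hu : ‖(u : Ω) - 1‖ ≤ δ) : ‖((relNorm W u : Ωˣ) : Ω) - 1‖ ≤ δ := by
  haveI := Fintype.ofFinite (Gℓ ⧸ W)
  rw [coe_relNorm]
  refine norm_prod_sub_one_le ℓ _ _ δ ((norm_nonneg _).trans hu) hδ (fun t _ => ?_)
  have : (Quotient.out t : Gℓ) (u : Ω) - 1 = (Quotient.out t : Gℓ) ((u : Ω) - 1) := by
    rw [map_sub, map_one]
  rw [this, norm_algEquiv]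
  exact hu

/-- continuity of `relNorm` in relative form -/
lemma norm_relNorm_sub_le (W : Subgroup Gℓ) [Finite (Gℓ ⧸ W)] (b β : Ωˣ) (δ : ℝ)
    (hδ : δ ≤ 1) (h : ‖(β : Ω) - b‖ ≤ δ * ‖(b : Ω)‖) :
    ‖((relNorm W β : Ωˣ) : Ω) - (relNorm W b : Ωˣ)‖ ≤ δ * ‖((relNorm W b : Ωˣ) : Ω)‖ := by
  have hb0 : ‖(b : Ω)‖ ≠ 0 := norm_ne_zero_iff.2 b.ne_zero
  have hu : ‖((β * b⁻¹ : Ωˣ) : Ω) - 1‖ ≤ δ := by
    have e : ((β * b⁻¹ : Ωˣ) : Ω) - 1 = ((β : Ω) - b) * ((b⁻¹ : Ωˣ) : Ω) := by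
      rw [Units.val_mul, sub_mul, Units.mul_inv]
    rw [e, norm_mul, Units.val_inv_eq_inv_val, norm_inv]
    rw [← div_eq_mul_inv, div_le_iff₀ (lt_of_le_of_ne (norm_nonneg _) (Ne.symm hb0))]
    exact h
  have h1 := norm_relNorm_sub_one_le ℓ W (β * b⁻¹) δ hδ hu
  have e2 : ((relNorm W β : Ωˣ) : Ω) - (relNorm W b : Ωˣ) =
      (((relNorm W (β * b⁻¹) : Ωˣ) : Ω) - 1) * (relNorm W b : Ωˣ) := by
    rw [sub_mul, one_mul, ← Units.val_mul, ← relNorm_mul, inv_mul_cancel_right]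
  rw [e2, norm_mul]
  exact mul_le_mul_of_nonneg_right h1 (norm_nonneg _)

end Fermat.Agent.S55.G.Rec.H893
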