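import Fermat.Agent.S55.G.Rec.Defs2

/-!
# S55 / G / REC leaf L5 (helper893), part 2: abstract lemmas on `relNorm`

`relNorm W b = ∏ᶠ t : G ⧸ W, (out t) • b`.
* `relNorm_eq_prod`, `relNorm_mul`, `smul_relNorm` (invariance), `relNorm_eq_pow_of_le` (tower).
-/

set_option autoImplicit false
set_option linter.style.haveILetI false

namespace Fermat.Agent.S55.G.Rec.H893

open Fermat.Agent.S55.G.Rec

variable {G M : Type*} [Group G] [CommGroup M] [MulDistribMulAction G M]

lemma relNorm_eq_prod (W : Subgroup G) [Fintype (G ⧸ W)] (b : M) :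
    relNorm W b = ∏ t : G ⧸ W, (Quotient.out t : G) • b :=
  finprod_eq_prod_of_fintype _

lemma relNorm_mul (W : Subgroup G) [Finite (G ⧸ W)] (b b' : M) :
    relNorm W (b * b') = relNorm W b * relNorm W b' := by
  haveI := Fintype.ofFinite (G ⧸ W)
  simp only [relNorm_eq_prod, smul_mul', Finset.prod_mul_distrib]

lemma relNorm_one (W : Subgroup G) : relNorm W (1 : M) = 1 := by
  simp [relNorm]

lemma relNorm_inv (W : Subgroup G) [Finite (G ⧸ W)] (b : M) :
    relNorm W b⁻¹ = (relNorm W b)⁻¹ := by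
  rw [eq_inv_iff_mul_eq_one, ← relNorm_mul, inv_mul_cancel, relNorm_one]

/-- the value `g • b` depends only on the coset `g W` when `b` is `W`-fixed -/
lemma smul_eq_of_mk_eq {W : Subgroup G} {b : M} (hb : ∀ w ∈ W, w • b = b) {g g' : G}
    (h : (QuotientGroup.mk g : G ⧸ W) = QuotientGroup.mk g') : g • b = g' • b := by
  have hw : g⁻¹ * g' ∈ W := QuotientGroup.eq.1 h
  have := hb _ hw
  calc g • b = g • ((g⁻¹ * g') • b) := by rw [this]
    _ = g' • b := by rw [smul_smul, mul_inv_cancel_left]

lemma out_smul_eq {W : Subgroup G} {b : M} (hb : ∀ w ∈ W, w • b = b) (g : G) :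
    (Quotient.out (QuotientGroup.mk g : G ⧸ W) : G) • b = g • b :=
  smul_eq_of_mk_eq hb (QuotientGroup.out_eq' _)

/-- `relNorm W b` is fixed by the whole group if `b` is fixed by `W`. -/
lemma smul_relNorm (W : Subgroup G) [Finite (G ⧸ W)] (b : M) (hb : ∀ w ∈ W, w • b = b)
    (g : G) : g • relNorm W b = relNorm W b := by
  haveI := Fintype.ofFinite (G ⧸ W)
  rw [relNorm_eq_prod, Finset.smul_prod']
  have h1 : ∀ t : G ⧸ W, g • ((Quotient.out t : G) • b) = (Quotient.out (g • t) : G) • b := by
    intro t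
    rw [smul_smul]
    refine (smul_eq_of_mk_eq hb ?_).symm
    rw [QuotientGroup.out_eq']
    conv_lhs => rw [← QuotientGroup.out_eq' t]
    rfl
  simp only [h1]
  exact Fintype.prod_equiv (MulAction.toPerm g) _ _ (fun t => rfl)

/-- tower formula: for `W' ≤ W` and `b` fixed by `W`, `N_{W'}(b) = N_W(b) ^ [W : W']`. -/
lemma relNorm_eq_pow_of_le {W' W : Subgroup G} (h : W' ≤ W) [Finite (G ⧸ W')] (b : M)
    (hb : ∀ w ∈ W, w • b = b) :
    relNorm W' b = relNorm W b ^ Nat.card (W ⧸ W'.subgroupOf W) := by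
  haveI : Finite (G ⧸ W) := Finite.of_surjective
    (Quotient.map' id fun _ _ hab => QuotientGroup.leftRel_apply.mpr
      (h (QuotientGroup.leftRel_apply.mp hab)) : G ⧸ W' → G ⧸ W)
    (fun y => by
      induction y using Quotient.inductionOn' with
      | h g => exact ⟨Quotient.mk'' g, rfl⟩)
  haveI := Fintype.ofFinite (G ⧸ W')
  haveI := Fintype.ofFinite (G ⧸ W)
  haveI : Finite (W ⧸ W'.subgroupOf W) :=
    Finite.of_injective (fun x => (Subgroup.quotientEquivProdOfLE h).symm (QuotientGroup.mk 1, x))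
      (fun x y hxy => by
        have := (Subgroup.quotientEquivProdOfLE h).symm.injective hxy
        exact (Prod.mk.inj this).2)
  haveI := Fintype.ofFinite (W ⧸ W'.subgroupOf W)
  rw [relNorm_eq_prod, relNorm_eq_prod, Nat.card_eq_fintype_card]
  have key : ∀ t : G ⧸ W', (Quotient.out t : G) • b =
      (Quotient.out ((Subgroup.quotientEquivProdOfLE h t).1) : G) • b := by
    intro t
    refine smul_eq_of_mk_eq hb ?_
    rw [QuotientGroup.out_eq']
    conv_rhs => rw [← QuotientGroup.out_eq' t]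
    rfl
  simp only [key]
  rw [← Fintype.prod_equiv (Subgroup.quotientEquivProdOfLE h).symm
    (fun p => (Quotient.out p.1 : G) • b)
    (fun t => (Quotient.out ((Subgroup.quotientEquivProdOfLE h t).1) : G) • b)
    (fun p => by rw [Equiv.apply_symm_apply])]
  rw [Fintype.prod_prod_type]
  simp only [Finset.prod_const, Finset.card_univ]
  rw [Finset.prod_pow]

end Fermat.Agent.S55.G.Rec.H893
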