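import Fermat.Agent.S55.G.Rec.H893.CycIrr
import Fermat.Agent.S55.G.Rec.H893.Local

/-!
# S55 / G / REC leaf L5 (helper893), part 5: a global cyclotomic field inside `PadicAlgCl ℓ`

`F = ℚ(μ_{ℓ^e})` (any cyclotomic extension of `ℚ`), `φ : F →ₐ[ℚ] PadicAlgCl ℓ` an embedding,
`rho φ : Gal(ℚ̄_ℓ/ℚ_ℓ) → Gal(F/ℚ)` the restriction homomorphism (surjective),
`cyc φ = autToPow ∘ rho` the cyclotomic character.
-/

set_option autoImplicit false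
set_option linter.style.haveILetI false

noncomputable section

namespace Fermat.Agent.S55.G.Rec.H893

open Polynomial

variable (ℓ : ℕ) [hℓ : Fact ℓ.Prime] (e : ℕ)

local notation "Ω" => PadicAlgCl ℓ
local notation "Gℓ" => (PadicAlgCl ℓ ≃ₐ[ℚ_[ℓ]] PadicAlgCl ℓ)

/-- `PadicAlgCl ℓ / ℚ_ℓ` is Galois. -/
theorem isGalois_padicAlgCl_h893 : IsGalois ℚ_[ℓ] (PadicAlgCl ℓ) := by
  haveI : IsAlgClosure ℚ_[ℓ] (PadicAlgCl ℓ) := ⟨inferInstance, inferInstance⟩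
  haveI : Normal ℚ_[ℓ] (PadicAlgCl ℓ) := IsAlgClosure.normal ℚ_[ℓ] (PadicAlgCl ℓ)
  exact isGalois_iff.mpr ⟨inferInstance, inferInstance⟩

theorem neZero_pow_h893 : NeZero (ℓ ^ e) := ⟨pow_ne_zero _ hℓ.out.ne_zero⟩

attribute [local instance] neZero_pow_h893

variable {F : Type} [Field F] [NumberField F] [hcyc : IsCyclotomicExtension {ℓ ^ e} ℚ F]
  (φ : F →ₐ[ℚ] PadicAlgCl ℓ)

variable (F) in
/-- the primitive root of unity of `F` -/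
def zF : F := IsCyclotomicExtension.zeta (ℓ ^ e) ℚ F

lemma zF_spec : IsPrimitiveRoot (zF ℓ e F) (ℓ ^ e) :=
  IsCyclotomicExtension.zeta_spec (ℓ ^ e) ℚ F

/-- its image in `ℚ̄_ℓ` -/
def zL : Ω := φ (zF ℓ e F)

lemma zL_spec : IsPrimitiveRoot (zL ℓ e φ) (ℓ ^ e) :=
  (zF_spec ℓ e).map_of_injective φ.injective

section Galois

/-- restriction `Gal(ℚ̄_ℓ/ℚ_ℓ) → Gal(ℚ(μ_{ℓ^e})/ℚ)` -/
def rho : Gℓ →* (F ≃ₐ[ℚ] F) :=
  letI : Algebra F Ω := φ.toRingHom.toAlgebra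
  haveI : IsScalarTower ℚ F Ω := IsScalarTower.of_algebraMap_eq' (Subsingleton.elim _ _)
  haveI : IsScalarTower ℚ ℚ_[ℓ] Ω := IsScalarTower.of_algebraMap_eq' (Subsingleton.elim _ _)
  haveI : Normal ℚ F := (IsCyclotomicExtension.isGalois {ℓ ^ e} ℚ F).to_normal
  (AlgEquiv.restrictNormalHom (F := ℚ) (K₁ := Ω) F).comp
    (MonoidHom.mk' (fun τ => τ.restrictScalars ℚ) (fun _ _ => rfl))

theorem emb_rho (τ : Gℓ) (x : F) : φ (rho ℓ e φ τ x) = τ (φ x) := by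
  letI : Algebra F Ω := φ.toRingHom.toAlgebra
  haveI : IsScalarTower ℚ F Ω := IsScalarTower.of_algebraMap_eq' (Subsingleton.elim _ _)
  haveI : IsScalarTower ℚ ℚ_[ℓ] Ω := IsScalarTower.of_algebraMap_eq' (Subsingleton.elim _ _)
  haveI : Normal ℚ F := (IsCyclotomicExtension.isGalois {ℓ ^ e} ℚ F).to_normal
  exact AlgEquiv.restrictNormal_commutes (τ.restrictScalars ℚ) F x

end Galois

/-- the cyclotomic character mod `ℓ^e` of `Gal(ℚ̄_ℓ/ℚ_ℓ)` -/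
def cyc : Gℓ →* (ZMod (ℓ ^ e))ˣ := ((zF_spec ℓ e (F := F)).autToPow ℚ).comp (rho ℓ e φ)

lemma cyc_spec_zL (τ : Gℓ) : τ (zL ℓ e φ) = zL ℓ e φ ^ (cyc ℓ e φ τ : ZMod (ℓ ^ e)).val := by
  unfold zL
  rw [← emb_rho ℓ e φ, ← map_pow]
  congr 1
  exact ((zF_spec ℓ e).autToPow_spec ℚ (rho ℓ e φ τ)).symm

lemma cyc_spec (τ : Gℓ) (ζ : Ω) (hζ : ζ ^ (ℓ ^ e) = 1) :
    τ ζ = ζ ^ (cyc ℓ e φ τ : ZMod (ℓ ^ e)).val := by
  obtain ⟨i, -, rfl⟩ := (zL_spec ℓ e φ).eq_pow_of_pow_eq_one hζ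
  rw [map_pow, cyc_spec_zL, ← pow_mul, ← pow_mul, mul_comm]

lemma autToPow_injective_h893 : Function.Injective ((zF_spec ℓ e (F := F)).autToPow ℚ) :=
  IsPrimitiveRoot.autToPow_injective ℚ (zF_spec ℓ e)

lemma rho_eq_one_iff (τ : Gℓ) : rho ℓ e φ τ = 1 ↔ cyc ℓ e φ τ = 1 := by
  constructor
  · intro h
    simp [cyc, h]
  · intro h
    apply autToPow_injective_h893 ℓ e
    rw [map_one]
    exact h

lemma ker_rho_eq : (rho ℓ e φ).ker = (cyc ℓ e φ).ker := by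
  ext τ
  simp only [MonoidHom.mem_ker]
  exact rho_eq_one_iff ℓ e φ τ

/-- an element acting trivially on `μ_{ℓ^e}` has trivial cyclotomic character -/
lemma cyc_eq_one_of_fix (he : 0 < e) (τ : Gℓ) (h : ∀ ζ : Ω, ζ ^ (ℓ ^ e) = 1 → τ ζ = ζ) :
    cyc ℓ e φ τ = 1 := by
  have hm : 1 < ℓ ^ e := Nat.one_lt_pow he.ne' hℓ.out.one_lt
  have h1 := h (zL ℓ e φ) (zL_spec ℓ e φ).pow_eq_one
  rw [cyc_spec_zL] at h1
  have h2 : zL ℓ e φ ^ (cyc ℓ e φ τ : ZMod (ℓ ^ e)).val = zL ℓ e φ ^ 1 := by rw [h1, pow_one]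
  have h3 := (zL_spec ℓ e φ).pow_inj (ZMod.val_lt _) hm h2
  apply Units.ext
  rw [Units.val_one, ← ZMod.natCast_zmod_val (cyc ℓ e φ τ : ZMod (ℓ ^ e)), h3, Nat.cast_one]

/-- the local cyclotomic character is surjective -/
theorem cyc_surjective (he : 0 < e) : Function.Surjective (cyc ℓ e φ) := by
  intro u
  haveI : IsAlgClosure ℚ_[ℓ] (PadicAlgCl ℓ) := ⟨inferInstance, inferInstance⟩
  haveI : Normal ℚ_[ℓ] (PadicAlgCl ℓ) := IsAlgClosure.normal ℚ_[ℓ] (PadicAlgCl ℓ)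
  have hirr := irreducible_cyclotomic_padic ℓ e he
  have hζ := zL_spec ℓ e φ
  have hζu : IsPrimitiveRoot (zL ℓ e φ ^ (u : ZMod (ℓ ^ e)).val) (ℓ ^ e) :=
    hζ.pow_of_coprime _ (ZMod.val_coe_unit_coprime u)
  have hconj : IsConjRoot ℚ_[ℓ] (zL ℓ e φ ^ (u : ZMod (ℓ ^ e)).val) (zL ℓ e φ) := by
    rw [isConjRoot_def, ← hζ.minpoly_eq_cyclotomic_of_irreducible hirr,
      ← hζu.minpoly_eq_cyclotomic_of_irreducible hirr]
  obtain ⟨τ, hτ⟩ := hconj.exists_algEquiv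
  refine ⟨τ, ?_⟩
  rw [cyc_spec_zL] at hτ
  have h3 := hζ.pow_inj (ZMod.val_lt _) (ZMod.val_lt _) hτ
  apply Units.ext
  rw [← ZMod.natCast_zmod_val (cyc ℓ e φ τ : ZMod (ℓ ^ e)), h3, ZMod.natCast_zmod_val]

theorem rho_surjective (he : 0 < e) : Function.Surjective (rho ℓ e φ) := by
  intro σ
  obtain ⟨τ, hτ⟩ := cyc_surjective ℓ e φ he ((zF_spec ℓ e (F := F)).autToPow ℚ σ)
  exact ⟨τ, autToPow_injective_h893 ℓ e hτ⟩

end Fermat.Agent.S55.G.Rec.H893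

end
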